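import Mathlib
import Fermat.Agent.A2.IF.H9.InertiaClosed

/-!
# S56 / W-FLAT-SS / ROOT, part R3 (helper434): the Galois-theoretic steps

* `isClosed_decompositionSubgroup`, `mem_decompositionSubgroup_of_fixes` (G1): an automorphism
  of `ℚ̄` fixing the decomposition ring `P ∩ ℚ̄^{D_P}` pointwise lies in `D_P`.
* `fracField B` : the fraction field of a subring `B ⊆ ℚ̄` as an intermediate field.
* `fixes_of_fixes` (G2): degree count.  `G`, `G'` monic of degree `e` with coefficients in `B`,
  `G(ϖ) = 0`, `G'(ϖ') = 0`, `1, ϖ, …, ϖ^(e-1)` linearly independent over `B`.  If every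
  automorphism fixing `B` and `ϖ'` fixes `ϖ`, then every automorphism fixing `B` and `ϖ` fixes `ϖ'`.
-/

set_option autoImplicit false
set_option linter.style.haveILetI false

open scoped Pointwise
open Polynomial

namespace Fermat.Agent.S56.H434

/-- `ℚ̄/ℚ` is algebraic (for the `Algebra ℚ ℚ̄` instance found by instance search). -/
theorem isAlgebraic_Qb434 : Algebra.IsAlgebraic ℚ (AlgebraicClosure ℚ) :=
  AlgebraicClosure.isAlgebraic ℚ

/-- `ℚ̄/ℚ` is Galois (for the `Algebra ℚ ℚ̄` instance found by instance search). -/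
theorem isGalois_Qb434 : IsGalois ℚ (AlgebraicClosure ℚ) := by
  haveI : Algebra.IsAlgebraic ℚ (AlgebraicClosure ℚ) := isAlgebraic_Qb434
  haveI : IsAlgClosure ℚ (AlgebraicClosure ℚ) := ⟨inferInstance, inferInstance⟩
  haveI : Normal ℚ (AlgebraicClosure ℚ) := IsAlgClosure.normal ℚ (AlgebraicClosure ℚ)
  exact isGalois_iff.mpr ⟨inferInstance, inferInstance⟩

attribute [local instance] isAlgebraic_Qb434 isGalois_Qb434

section G1

/-- The decomposition group is closed in the Krull topology. -/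
theorem isClosed_decompositionSubgroup (P : ValuationSubring (AlgebraicClosure ℚ)) :
    IsClosed ((P.decompositionSubgroup ℚ : Subgroup (AlgebraicClosure ℚ ≃ₐ[ℚ] AlgebraicClosure ℚ)) :
      Set (AlgebraicClosure ℚ ≃ₐ[ℚ] AlgebraicClosure ℚ)) := by
  have : ((P.decompositionSubgroup ℚ : Subgroup (AlgebraicClosure ℚ ≃ₐ[ℚ] AlgebraicClosure ℚ)) :
      Set (AlgebraicClosure ℚ ≃ₐ[ℚ] AlgebraicClosure ℚ))
      = ⋂ x ∈ (P : Set (AlgebraicClosure ℚ)),
        {σ : AlgebraicClosure ℚ ≃ₐ[ℚ] AlgebraicClosure ℚ | σ x ∈ (P : Set (AlgebraicClosure ℚ))} := by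
    ext σ
    simp only [SetLike.mem_coe, Set.mem_iInter, Set.mem_ofPred_eq]
    constructor
    · intro hσ x hx
      exact Fermat.Agent.A2.IF.H9.apply_mem_of_smul_eq (MulAction.mem_stabilizer_iff.mp hσ) hx
    · intro h
      exact MulAction.mem_stabilizer_iff.mpr (Fermat.Agent.A2.IF.H9.smul_eq_of_forall_mem P σ h)
  rw [this]
  exact isClosed_biInter fun x _ => Fermat.Agent.A2.IF.H9.isClosed_setOf_apply_mem x _

/-- **(G1)** An automorphism fixing pointwise the decomposition ring `P ∩ ℚ̄^{D_P}` lies in the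
decomposition group `D_P`. -/
theorem mem_decompositionSubgroup_of_fixes (P : ValuationSubring (AlgebraicClosure ℚ))
    (σ : AlgebraicClosure ℚ ≃ₐ[ℚ] AlgebraicClosure ℚ)
    (h : ∀ x ∈ P, (∀ τ ∈ P.decompositionSubgroup ℚ, τ x = x) → σ x = x) :
    σ ∈ P.decompositionSubgroup ℚ := by
  let Hc : ClosedSubgroup (AlgebraicClosure ℚ ≃ₐ[ℚ] AlgebraicClosure ℚ) :=
    ⟨P.decompositionSubgroup ℚ, isClosed_decompositionSubgroup P⟩
  have hH := InfiniteGalois.fixingSubgroup_fixedField Hc
  have hσ : σ ∈ (IntermediateField.fixedField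
      (Hc : Subgroup (AlgebraicClosure ℚ ≃ₐ[ℚ] AlgebraicClosure ℚ))).fixingSubgroup := by
    rw [IntermediateField.mem_fixingSubgroup_iff]
    intro x hx
    have hxfix : ∀ τ ∈ P.decompositionSubgroup ℚ, τ x = x := by
      intro τ hτ
      exact (IntermediateField.mem_fixedField_iff _ x).mp hx τ hτ
    rcases P.mem_or_inv_mem x with hxP | hxP
    · exact h x hxP hxfix
    · have h1 := h x⁻¹ hxP (fun τ hτ => by rw [map_inv₀, hxfix τ hτ])
      rw [map_inv₀] at h1
      exact inv_injective h1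
  rw [hH] at hσ
  exact hσ

end G1

section G2

/-- The fraction field of a subring of `ℚ̄`, as an intermediate field. -/
def fracField (B : Subring (AlgebraicClosure ℚ)) : IntermediateField ℚ (AlgebraicClosure ℚ) where
  carrier := {x | ∃ a ∈ B, ∃ d ∈ B, d ≠ 0 ∧ x * d = a}
  mul_mem' := by
    rintro x y ⟨a, ha, d, hd, hd0, hx⟩ ⟨a', ha', d', hd', hd'0, hy⟩
    refine ⟨a * a', B.mul_mem ha ha', d * d', B.mul_mem hd hd', mul_ne_zero hd0 hd'0, ?_⟩
    rw [← hx, ← hy]; ring
  one_mem' := ⟨1, B.one_mem, 1, B.one_mem, one_ne_zero, by ring⟩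
  add_mem' := by
    rintro x y ⟨a, ha, d, hd, hd0, hx⟩ ⟨a', ha', d', hd', hd'0, hy⟩
    refine ⟨a * d' + a' * d, B.add_mem (B.mul_mem ha hd') (B.mul_mem ha' hd), d * d',
      B.mul_mem hd hd', mul_ne_zero hd0 hd'0, ?_⟩
    rw [← hx, ← hy]; ring
  zero_mem' := ⟨0, B.zero_mem, 1, B.one_mem, one_ne_zero, by ring⟩
  algebraMap_mem' := by
    intro q
    refine ⟨(q.num : AlgebraicClosure ℚ), intCast_mem B _, (q.den : AlgebraicClosure ℚ),
      natCast_mem B _, by exact_mod_cast q.den_nz, ?_⟩
    have h1 : (algebraMap ℚ (AlgebraicClosure ℚ)) q * ((q.den : ℚ) : AlgebraicClosure ℚ)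
        = ((q.num : ℚ) : AlgebraicClosure ℚ) := by
      have h2 : q * (q.den : ℚ) = (q.num : ℚ) := Rat.mul_den_eq_num q
      have h3 := congrArg (algebraMap ℚ (AlgebraicClosure ℚ)) h2
      rw [map_mul] at h3
      simpa using h3
    simpa using h1
  inv_mem' := by
    rintro x ⟨a, ha, d, hd, hd0, hx⟩
    rcases eq_or_ne a 0 with rfl | ha0
    · have hx0 : x = 0 := by
        rcases mul_eq_zero.mp hx with h | h
        · exact h
        · exact absurd h hd0
      refine ⟨0, B.zero_mem, 1, B.one_mem, one_ne_zero, ?_⟩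
      rw [hx0]; simp
    · refine ⟨d, hd, a, ha, ha0, ?_⟩
      have hx0 : x ≠ 0 := by
        rintro rfl
        rw [zero_mul] at hx
        exact ha0 hx.symm
      rw [← hx]
      field_simp

theorem mem_fracField {B : Subring (AlgebraicClosure ℚ)} {x : AlgebraicClosure ℚ} :
    x ∈ fracField B ↔ ∃ a ∈ B, ∃ d ∈ B, d ≠ 0 ∧ x * d = a := Iff.rfl

theorem subring_le_fracField (B : Subring (AlgebraicClosure ℚ)) {b : AlgebraicClosure ℚ}
    (hb : b ∈ B) : b ∈ fracField B :=
  ⟨b, hb, 1, B.one_mem, one_ne_zero, mul_one b⟩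

/-- An automorphism fixing `B` pointwise fixes its fraction field pointwise. -/
theorem fixes_fracField (B : Subring (AlgebraicClosure ℚ))
    (σ : AlgebraicClosure ℚ ≃ₐ[ℚ] AlgebraicClosure ℚ) (hσ : ∀ b ∈ B, σ b = b)
    {x : AlgebraicClosure ℚ} (hx : x ∈ fracField B) : σ x = x := by
  obtain ⟨a, ha, d, hd, hd0, hxd⟩ := hx
  have h1 : σ x * d = x * d := by
    have := congrArg σ hxd
    rw [map_mul, hσ d hd, hσ a ha] at this
    rw [this, hxd]
  exact mul_right_cancel₀ hd0 h1

/-- Clearing the denominators of a finite family of elements of the fraction field. -/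
theorem exists_common_denominator (B : Subring (AlgebraicClosure ℚ)) (s : Finset ℕ)
    (c : ℕ → AlgebraicClosure ℚ) (hc : ∀ i ∈ s, c i ∈ fracField B) :
    ∃ D ∈ B, D ≠ 0 ∧ ∀ i ∈ s, c i * D ∈ B := by
  classical
  induction s using Finset.induction_on with
  | empty => exact ⟨1, B.one_mem, one_ne_zero, by simp⟩
  | insert j s hj ih =>
    obtain ⟨D, hD, hD0, hDs⟩ := ih fun i hi => hc i (Finset.mem_insert_of_mem hi)
    obtain ⟨a, ha, d, hd, hd0, hjd⟩ := hc j (Finset.mem_insert_self j s)
    refine ⟨D * d, B.mul_mem hD hd, mul_ne_zero hD0 hd0, fun i hi => ?_⟩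
    rcases Finset.mem_insert.mp hi with rfl | hi
    · have : c i * (D * d) = D * a := by rw [← hjd]; ring
      rw [this]
      exact B.mul_mem hD ha
    · have : c i * (D * d) = c i * D * d := by ring
      rw [this]
      exact B.mul_mem (hDs i hi) hd

/-- **(G2)** degree count. -/
theorem fixes_of_fixes (B : Subring (AlgebraicClosure ℚ)) (ϖ ϖ' : AlgebraicClosure ℚ) (e : ℕ)
    (G' : (AlgebraicClosure ℚ)[X]) (hG'm : G'.Monic) (hG'deg : G'.natDegree = e)
    (hG'coef : ∀ i, G'.coeff i ∈ B) (hroot' : G'.eval ϖ' = 0)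
    (hindep : ∀ a : Fin e → AlgebraicClosure ℚ, (∀ i, a i ∈ B) →
      ∑ i, a i * ϖ ^ (i : ℕ) = 0 → ∀ i, a i = 0)
    (h : ∀ σ : AlgebraicClosure ℚ ≃ₐ[ℚ] AlgebraicClosure ℚ,
      (∀ b ∈ B, σ b = b) → σ ϖ' = ϖ' → σ ϖ = ϖ) :
    ∀ τ : AlgebraicClosure ℚ ≃ₐ[ℚ] AlgebraicClosure ℚ,
      (∀ b ∈ B, τ b = b) → τ ϖ = ϖ → τ ϖ' = ϖ' := by
  classical
  set K : IntermediateField ℚ (AlgebraicClosure ℚ) := fracField B with hK
  haveI : IsGalois K (AlgebraicClosure ℚ) := IsGalois.tower_top_intermediateField K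
  haveI : Algebra.IsAlgebraic K (AlgebraicClosure ℚ) := inferInstance
  have hint : ∀ x : AlgebraicClosure ℚ, IsIntegral K x :=
    fun x => (Algebra.IsAlgebraic.isAlgebraic x).isIntegral
  -- Step A: the degree of `ϖ'` over `K` is at most `e`
  have hlifts : G' ∈ Polynomial.lifts (algebraMap K (AlgebraicClosure ℚ)) := by
    rw [Polynomial.lifts_iff_coeff_lifts]
    intro i
    exact ⟨⟨G'.coeff i, subring_le_fracField B (hG'coef i)⟩, rfl⟩
  obtain ⟨q, hqmap, hqdeg, hqm⟩ := Polynomial.lifts_and_natDegree_eq_and_monic hlifts hG'm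
  have hqroot : Polynomial.aeval ϖ' q = 0 := by
    rw [Polynomial.aeval_def, ← Polynomial.eval_map, hqmap, hroot']
  have hA : (minpoly K ϖ').natDegree ≤ e := by
    rw [← hG'deg, ← hqdeg]
    exact Polynomial.natDegree_le_of_dvd (minpoly.dvd K ϖ' hqroot) hqm.ne_zero
  -- Step B: the degree of `ϖ` over `K` is at least `e`
  have hB : e ≤ (minpoly K ϖ).natDegree := by
    by_contra hcon
    rw [not_le] at hcon
    set m := (minpoly K ϖ).natDegree with hm
    have hmonic : (minpoly K ϖ).Monic := minpoly.monic (hint ϖ)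
    let c : ℕ → AlgebraicClosure ℚ := fun i => ((minpoly K ϖ).coeff i : AlgebraicClosure ℚ)
    obtain ⟨D, hD, hD0, hDc⟩ := exists_common_denominator B (Finset.range (m + 1)) c
      (fun i _ => ((minpoly K ϖ).coeff i).2)
    have hsum : ∑ i ∈ Finset.range (m + 1), c i * ϖ ^ i = 0 := by
      have h1 := minpoly.aeval K ϖ
      rw [Polynomial.aeval_eq_sum_range] at h1
      rw [← h1]
      refine Finset.sum_congr rfl fun i _ => ?_
      rw [Algebra.smul_def]
      rfl
    have key := hindep (fun i : Fin e => if (i : ℕ) ≤ m then c i * D else 0)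
      (fun i => by
        by_cases hi : (i : ℕ) ≤ m
        · simp only [hi, if_true]
          exact hDc i (Finset.mem_range.mpr (Nat.lt_succ_of_le hi))
        · simp only [hi, if_false]
          exact B.zero_mem)
      (by
        have h2 : ∑ i : Fin e, (if (i : ℕ) ≤ m then c i * D else 0) * ϖ ^ (i : ℕ)
            = ∑ i ∈ Finset.range e, (if i ≤ m then c i * D else 0) * ϖ ^ i :=
          (Finset.sum_range (fun i => (if i ≤ m then c i * D else 0) * ϖ ^ i)).symm
        rw [h2]
        have h3 : ∑ i ∈ Finset.range e, (if i ≤ m then c i * D else 0) * ϖ ^ i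
            = ∑ i ∈ Finset.range (m + 1), c i * D * ϖ ^ i := by
          have hsub : Finset.range (m + 1) ⊆ Finset.range e :=
            Finset.range_subset_range.mpr hcon
          rw [← Finset.sum_subset hsub (f := fun i => (if i ≤ m then c i * D else 0) * ϖ ^ i)]
          · refine Finset.sum_congr rfl fun i hi => ?_
            have : i ≤ m := Nat.lt_succ_iff.mp (Finset.mem_range.mp hi)
            simp only [this, if_true]
          · intro i _ hi
            have : ¬ i ≤ m := fun h => hi (Finset.mem_range.mpr (Nat.lt_succ_of_le h))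
            simp only [this, if_false, zero_mul]
        rw [h3]
        have h4 : ∑ i ∈ Finset.range (m + 1), c i * D * ϖ ^ i
            = D * ∑ i ∈ Finset.range (m + 1), c i * ϖ ^ i := by
          rw [Finset.mul_sum]
          refine Finset.sum_congr rfl fun i _ => ?_
          ring
        rw [h4, hsum, mul_zero])
      ⟨m, hcon⟩
    simp only [le_refl, if_true] at key
    have hcm : c m = 1 := by
      show (((minpoly K ϖ).coeff m : K) : AlgebraicClosure ℚ) = 1
      rw [hm, Polynomial.coeff_natDegree, hmonic.leadingCoeff]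
      rfl
    rw [hcm, one_mul] at key
    exact hD0 key
  -- Step C: `ϖ ∈ K(ϖ')`
  have hC : ϖ ∈ IntermediateField.adjoin K {ϖ'} := by
    have hfix := InfiniteGalois.fixedField_fixingSubgroup (IntermediateField.adjoin K {ϖ'})
    rw [← hfix, IntermediateField.mem_fixedField_iff]
    intro σ hσ
    have hσ' := (IntermediateField.mem_fixingSubgroup_iff _ σ).mp hσ
    have h1 : ∀ b ∈ B, (σ.restrictScalars ℚ) b = b := by
      intro b hb
      exact σ.commutes ⟨b, subring_le_fracField B hb⟩
    have h2 : (σ.restrictScalars ℚ) ϖ' = ϖ' :=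
      hσ' ϖ' (IntermediateField.subset_adjoin K _ (Set.mem_singleton _))
    exact h (σ.restrictScalars ℚ) h1 h2
  -- Step D: `K(ϖ) = K(ϖ')`
  have hle : IntermediateField.adjoin K {ϖ} ≤ IntermediateField.adjoin K {ϖ'} := by
    rw [IntermediateField.adjoin_le_iff]
    rintro x hx
    rw [Set.mem_singleton_iff] at hx
    rw [hx]
    exact hC
  haveI : FiniteDimensional K (IntermediateField.adjoin K {ϖ'}) :=
    IntermediateField.adjoin.finiteDimensional (hint ϖ')
  have hfr : Module.finrank K (IntermediateField.adjoin K {ϖ'})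
      ≤ Module.finrank K (IntermediateField.adjoin K {ϖ}) := by
    rw [IntermediateField.adjoin.finrank (hint ϖ'), IntermediateField.adjoin.finrank (hint ϖ)]
    exact hA.trans hB
  have heq : IntermediateField.adjoin K {ϖ} = IntermediateField.adjoin K {ϖ'} :=
    IntermediateField.eq_of_le_of_finrank_le hle hfr
  have hϖ' : ϖ' ∈ IntermediateField.adjoin K {ϖ} := by
    rw [heq]
    exact IntermediateField.subset_adjoin K _ (Set.mem_singleton _)
  -- Step E
  intro τ hτB hτϖ
  let τ' : AlgebraicClosure ℚ ≃ₐ[K] AlgebraicClosure ℚ :=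
    { τ.toRingEquiv with
      commutes' := fun x => fixes_fracField B τ hτB x.2 }
  have hτ'app : ∀ x, τ' x = τ x := fun x => rfl
  have hmem : ϖ ∈ IntermediateField.fixedField (Subgroup.zpowers τ') := by
    rw [IntermediateField.mem_fixedField_iff]
    intro g hg
    obtain ⟨n, rfl⟩ := Subgroup.mem_zpowers_iff.mp hg
    have hfix1 : τ' ϖ = ϖ := hτϖ
    have : ∀ n : ℕ, (τ' ^ n) ϖ = ϖ := by
      intro n
      induction n with
      | zero => rfl
      | succ n ih => rw [pow_succ, AlgEquiv.mul_apply, hfix1, ih]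
    have hinv : ∀ n : ℕ, ((τ' ^ n)⁻¹) ϖ = ϖ := by
      intro n
      have h1 := this n
      have h2 : ((τ' ^ n)⁻¹) ((τ' ^ n) ϖ) = ϖ := by
        rw [← AlgEquiv.mul_apply, inv_mul_cancel]
        rfl
      rw [h1] at h2
      exact h2
    cases n with
    | ofNat n => simpa using this n
    | negSucc n => simpa [zpow_negSucc] using hinv (n + 1)
  have hle2 : IntermediateField.adjoin K {ϖ} ≤ IntermediateField.fixedField (Subgroup.zpowers τ') := by
    rw [IntermediateField.adjoin_le_iff]
    rintro x hx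
    rw [Set.mem_singleton_iff] at hx
    rw [hx]
    exact hmem
  have h3 := hle2 hϖ'
  rw [IntermediateField.mem_fixedField_iff] at h3
  exact h3 τ' (Subgroup.mem_zpowers τ')

end G2

end Fermat.Agent.S56.H434
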