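import Mathlib

/-!
# S56 / W2-SS, piece A (helper434): abstract ultrametric "norms" on commutative rings

Mathlib-only.  `UNorm C Γ` is an ultrametric submultiplicative norm on a commutative ring with
values in a linearly ordered commutative group with zero.  The results are

* `UNorm.mul_sub_le_pow_sub_pow` (QLL): if `a ≡ b mod γ` with `γ^(p-1) < π = N p`, `b^p ≡ 1`,
  then `π * N (a - b) ≤ N (a^p - b^p)`;
* `UNorm.eq_of_pow_eq_one` (LL): `a^p = b^p = 1`, `N (a - b) ≤ γ` implies `a = b`;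
* `UNorm.exists_newton` : Newton iteration for `X^p = 1`.
-/

set_option autoImplicit false

namespace Fermat.Agent.S56.H434

/-- An ultrametric, submultiplicative norm on a commutative ring. -/
structure UNorm (C : Type*) [CommRing C] (Γ : Type*) [LinearOrderedCommGroupWithZero Γ] where
  /-- the norm -/
  N : C → Γ
  zero : N 0 = 0
  eq_zero : ∀ a, N a = 0 → a = 0
  add_le : ∀ a b, N (a + b) ≤ max (N a) (N b)
  neg : ∀ a, N (-a) = N a
  mul_le : ∀ a b, N (a * b) ≤ N a * N b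
  one_le : N 1 ≤ 1

/-- In any commutative ring, for a prime `p`, the binomial expansion of `(b + y) ^ p` with the
intermediate terms collected: all the data stay in any subring containing `b` and `y`. -/
theorem add_pow_prime_expand {C : Type*} [CommRing C] {p : ℕ} (hp : p.Prime) (S : Subring C)
    {b y : C} (hb : b ∈ S) (hy : y ∈ S) :
    ∃ w ∈ S, (b + y) ^ p = b ^ p + p * y * b ^ (p - 1) + p * y * (y * w) + y ^ p := by
  obtain ⟨q, rfl⟩ : ∃ q, p = q + 2 := ⟨p - 2, by have := hp.two_le; omega⟩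
  refine ⟨∑ i ∈ Finset.range q,
    y ^ i * b ^ (q - i) * (((q + 2).choose (i + 2) / (q + 2) : ℕ) : C), ?_, ?_⟩
  · exact S.sum_mem fun i _ =>
      S.mul_mem (S.mul_mem (S.pow_mem hy _) (S.pow_mem hb _)) (natCast_mem S _)
  · have key : ∀ i ∈ Finset.range q,
        y ^ (i + 1 + 1) * b ^ (q + 2 - (i + 1 + 1)) * ((q + 2).choose (i + 1 + 1) : C)
          = ((q + 2 : ℕ) : C) * y *
            (y * (y ^ i * b ^ (q - i) * (((q + 2).choose (i + 2) / (q + 2) : ℕ) : C))) := by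
      intro i hi
      have hi' : i < q := Finset.mem_range.mp hi
      have hdvd : (q + 2) ∣ (q + 2).choose (i + 2) :=
        hp.dvd_choose_self (by omega) (by omega)
      obtain ⟨c, hc⟩ := hdvd
      have h1 : (q + 2).choose (i + 1 + 1) = (q + 2) * c := hc
      rw [h1, Nat.mul_div_cancel_left c (by omega : 0 < q + 2),
        show q + 2 - (i + 1 + 1) = q - i by omega]
      push_cast
      ring
    rw [add_comm b y, add_pow, Finset.sum_range_succ, Finset.sum_range_succ',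
      Finset.sum_range_succ', Finset.sum_congr rfl key, ← Finset.mul_sum, ← Finset.mul_sum]
    simp only [zero_add, pow_one, Nat.choose_one_right, Nat.choose_self, Nat.cast_one, mul_one,
      pow_zero, one_mul, Nat.sub_zero, Nat.choose_zero_right, Nat.sub_self]
    push_cast
    ring

namespace UNorm

variable {C : Type*} [CommRing C] {Γ : Type*} [LinearOrderedCommGroupWithZero Γ] (ν : UNorm C Γ)

theorem sub_le (a b : C) : ν.N (a - b) ≤ max (ν.N a) (ν.N b) := by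
  rw [sub_eq_add_neg]
  exact (ν.add_le a (-b)).trans (by rw [ν.neg])

theorem sub_comm (a b : C) : ν.N (a - b) = ν.N (b - a) := by
  rw [← ν.neg (a - b), neg_sub]

theorem add_le_of_le {a b : C} {γ : Γ} (ha : ν.N a ≤ γ) (hb : ν.N b ≤ γ) : ν.N (a + b) ≤ γ :=
  (ν.add_le a b).trans (max_le ha hb)

theorem sub_le_of_le {a b : C} {γ : Γ} (ha : ν.N a ≤ γ) (hb : ν.N b ≤ γ) : ν.N (a - b) ≤ γ :=
  (ν.sub_le a b).trans (max_le ha hb)

theorem neg_le_of_le {a : C} {γ : Γ} (ha : ν.N a ≤ γ) : ν.N (-a) ≤ γ := by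
  rwa [ν.neg]

theorem mul_le_of_le {a b : C} {γ δ : Γ} (ha : ν.N a ≤ γ) (hb : ν.N b ≤ δ) :
    ν.N (a * b) ≤ γ * δ :=
  (ν.mul_le a b).trans (mul_le_mul' ha hb)

theorem mul_le_one {a b : C} (ha : ν.N a ≤ 1) (hb : ν.N b ≤ 1) : ν.N (a * b) ≤ 1 := by
  simpa using ν.mul_le_of_le ha hb

theorem mul_le_left {a b : C} {γ : Γ} (ha : ν.N a ≤ γ) (hb : ν.N b ≤ 1) : ν.N (a * b) ≤ γ := by
  simpa using ν.mul_le_of_le ha hb

theorem mul_le_right {a b : C} {γ : Γ} (ha : ν.N a ≤ 1) (hb : ν.N b ≤ γ) : ν.N (a * b) ≤ γ := by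
  simpa using ν.mul_le_of_le ha hb

theorem pow_le {a : C} {γ : Γ} (ha : ν.N a ≤ γ) (n : ℕ) (hn : n ≠ 0) : ν.N (a ^ n) ≤ γ ^ n := by
  induction n with
  | zero => exact absurd rfl hn
  | succ n ih =>
    rcases Nat.eq_zero_or_pos n with rfl | hpos
    · simpa using ha
    · rw [pow_succ, pow_succ]
      exact ν.mul_le_of_le (ih hpos.ne') ha

theorem pow_le_one {a : C} (ha : ν.N a ≤ 1) (n : ℕ) : ν.N (a ^ n) ≤ 1 := by
  induction n with
  | zero => simpa using ν.one_le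
  | succ n ih => rw [pow_succ]; exact ν.mul_le_one ih ha

theorem sum_le {ι : Type*} (s : Finset ι) (f : ι → C) {γ : Γ} (h : ∀ i ∈ s, ν.N (f i) ≤ γ) :
    ν.N (∑ i ∈ s, f i) ≤ γ := by
  classical
  induction s using Finset.induction_on with
  | empty => simp [ν.zero]
  | insert i s hi ih =>
    rw [Finset.sum_insert hi]
    exact ν.add_le_of_le (h i (Finset.mem_insert_self i s))
      (ih fun j hj => h j (Finset.mem_insert_of_mem hj))

/-- The unit ball of a `UNorm` as a subring. -/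
def ball : Subring C where
  carrier := {a | ν.N a ≤ 1}
  mul_mem' ha hb := ν.mul_le_one ha hb
  one_mem' := ν.one_le
  add_mem' ha hb := ν.add_le_of_le ha hb
  zero_mem' := by simp [ν.zero]
  neg_mem' ha := by simpa [ν.neg] using ha

theorem mem_ball {a : C} : a ∈ ν.ball ↔ ν.N a ≤ 1 := Iff.rfl

theorem natCast_le_one (n : ℕ) : ν.N (n : C) ≤ 1 := natCast_mem ν.ball n

/-- The data making a prime `p` "uniformly of size `π`" in a normed ring. -/
structure PData (p : ℕ) (π : Γ) : Prop where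
  prime : p.Prime
  π_le : π ≤ 1
  N_p_mul : ∀ a : C, ν.N ((p : C) * a) = π * ν.N a

variable {ν} {p : ℕ} {π : Γ}

theorem PData.lt_one_of_pow_lt (hp : ν.PData p π) {γ : Γ} (hγ : γ ^ (p - 1) < π) : γ < 1 := by
  by_contra h
  rw [not_lt] at h
  have : (1 : Γ) ≤ γ ^ (p - 1) := one_le_pow_of_one_le' h _
  exact absurd (hγ.trans_le hp.π_le) (not_lt.mpr this)

/-- **Quantitative lifting lemma.** -/
theorem mul_sub_le_pow_sub_pow (hp : ν.PData p π) {γ : Γ} (hγ : γ ^ (p - 1) < π)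
    {a b : C} (hb : ν.N b ≤ 1) (hab : ν.N (a - b) ≤ γ)
    (hb1 : ν.N (b ^ p - 1) < 1) : π * ν.N (a - b) ≤ ν.N (a ^ p - b ^ p) := by
  have hγ1 : γ < 1 := hp.lt_one_of_pow_lt hγ
  have hπ0 : 0 < π := lt_of_le_of_lt zero_le hγ
  set y := a - b with hy
  have hy1 : ν.N y ≤ 1 := hab.trans hγ1.le
  obtain ⟨w, hw, hexp⟩ := add_pow_prime_expand hp.prime ν.ball (b := b) (y := y) hb hy1
  have hw1 : ν.N w ≤ 1 := hw
  have hbya : b + y = a := by rw [hy]; ring
  rw [hbya] at hexp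
  -- the key identity
  have hp1 : p - 1 + 1 = p := Nat.sub_add_cancel hp.prime.one_le
  have hid : (p : C) * y = b * (a ^ p - b ^ p) - (p : C) * (y * (b ^ p - 1))
      - (p : C) * (y * (b * (y * w))) - b * y ^ p := by
    have hbp : b ^ p = b ^ (p - 1) * b := by rw [← pow_succ, hp1]
    rw [hexp, hbp]
    ring
  rcases eq_or_ne (ν.N y) 0 with h0 | h0
  · rw [h0, mul_zero]; exact zero_le
  have hY : 0 < ν.N y := lt_of_le_of_ne zero_le (Ne.symm h0)
  have hπY : 0 < π * ν.N y := mul_pos hπ0 hY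
  by_contra hcon
  rw [not_le] at hcon
  have h1 : ν.N (b * (a ^ p - b ^ p)) < π * ν.N y :=
    lt_of_le_of_lt (ν.mul_le_right hb le_rfl) hcon
  have h2 : ν.N ((p : C) * (y * (b ^ p - 1))) < π * ν.N y := by
    rw [hp.N_p_mul]
    refine mul_lt_mul_of_pos_left ?_ hπ0
    calc ν.N (y * (b ^ p - 1)) ≤ ν.N y * ν.N (b ^ p - 1) := ν.mul_le _ _
      _ < ν.N y * 1 := mul_lt_mul_of_pos_left hb1 hY
      _ = ν.N y := mul_one _
  have h3 : ν.N ((p : C) * (y * (b * (y * w)))) < π * ν.N y := by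
    rw [hp.N_p_mul]
    refine mul_lt_mul_of_pos_left ?_ hπ0
    have : ν.N (b * (y * w)) ≤ γ := ν.mul_le_right hb (ν.mul_le_left hab hw1)
    calc ν.N (y * (b * (y * w))) ≤ ν.N y * ν.N (b * (y * w)) := ν.mul_le _ _
      _ ≤ ν.N y * γ := mul_le_mul' le_rfl this
      _ < ν.N y * 1 := mul_lt_mul_of_pos_left hγ1 hY
      _ = ν.N y := mul_one _
  have h4 : ν.N (b * y ^ p) < π * ν.N y := by
    have hyp : y ^ p = y ^ (p - 1) * y := by rw [← pow_succ, hp1]
    have hle : ν.N (y ^ (p - 1)) ≤ γ ^ (p - 1) := by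
      rcases Nat.eq_zero_or_pos (p - 1) with h | h
      · have := hp.prime.two_le; omega
      · exact ν.pow_le hab _ h.ne'
    calc ν.N (b * y ^ p) ≤ ν.N (y ^ p) := ν.mul_le_right hb le_rfl
      _ = ν.N (y ^ (p - 1) * y) := by rw [hyp]
      _ ≤ ν.N (y ^ (p - 1)) * ν.N y := ν.mul_le _ _
      _ ≤ γ ^ (p - 1) * ν.N y := mul_le_mul' hle le_rfl
      _ < π * ν.N y := mul_lt_mul_of_pos_right hγ hY
  have hfin : ν.N ((p : C) * y) < π * ν.N y := by
    rw [hid]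
    refine lt_of_le_of_lt (ν.sub_le _ _) (max_lt ?_ h4)
    refine lt_of_le_of_lt (ν.sub_le _ _) (max_lt ?_ h3)
    exact lt_of_le_of_lt (ν.sub_le _ _) (max_lt h1 h2)
  rw [hp.N_p_mul] at hfin
  exact lt_irrefl _ hfin

/-- **Lifting lemma, uniqueness.** Two `p`-th roots of unity which are congruent modulo `γ`
with `γ ^ (p - 1) < π` are equal. -/
theorem eq_of_pow_eq_one (hp : ν.PData p π) {γ : Γ} (hγ : γ ^ (p - 1) < π)
    {a b : C} (hb : ν.N b ≤ 1) (hab : ν.N (a - b) ≤ γ)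
    (hap : a ^ p = 1) (hbp : b ^ p = 1) : a = b := by
  have hπ0 : 0 < π := lt_of_le_of_lt zero_le hγ
  have h := mul_sub_le_pow_sub_pow hp hγ hb hab (by rw [hbp, sub_self, ν.zero]; exact one_pos)
  rw [hap, hbp, sub_self, ν.zero] at h
  have h0 : π * ν.N (a - b) = 0 := le_antisymm h zero_le
  rcases mul_eq_zero.mp h0 with h1 | h1
  · exact absurd h1 hπ0.ne'
  · exact sub_eq_zero.mp (ν.eq_zero _ h1)

/-- One Newton step for `X ^ p = 1`. -/
theorem newton_step (hp : ν.PData p π) (hdiv : ∀ a : C, ∃ z, (p : C) * z = a)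
    (S₀ : Subring C) (hS₀ : ∀ a : C, (p : C) * a ∈ S₀ → a ∈ S₀)
    {γ γ' : Γ} (hγ : γ ^ (p - 1) < π) (hγ' : γ' ≤ γ)
    {f : C} (hfS : f ∈ S₀) (hf : ν.N f ≤ 1) (hfp : ν.N (f ^ p - 1) ≤ π * γ') :
    ∃ g ∈ S₀, ν.N g ≤ 1 ∧ ν.N (g - f) ≤ γ' ∧
      ν.N (g ^ p - 1) ≤ π * γ' * max γ (γ ^ (p - 1) * π⁻¹) := by
  have hγ1 : γ < 1 := hp.lt_one_of_pow_lt hγ
  have hπ0 : 0 < π := lt_of_le_of_lt zero_le hγ
  have hγ'1 : γ' ≤ 1 := hγ'.trans hγ1.le
  have hp1 : p - 1 + 1 = p := Nat.sub_add_cancel hp.prime.one_le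
  obtain ⟨z, hz⟩ := hdiv (f ^ p - 1)
  have hzS : z ∈ S₀ := hS₀ z (by rw [hz]; exact S₀.sub_mem (S₀.pow_mem hfS _) S₀.one_mem)
  have hzN : ν.N z ≤ γ' := by
    have : π * ν.N z ≤ π * γ' := by rw [← hp.N_p_mul, hz]; exact hfp
    exact le_of_mul_le_mul_left this hπ0
  have hz1 : ν.N z ≤ 1 := hzN.trans hγ'1
  have hpz : ν.N ((p : C) * z) ≤ π * γ' := by rw [hz]; exact hfp
  obtain ⟨w, hw, hexp⟩ := add_pow_prime_expand hp.prime ν.ball (b := (1 : C)) (y := -z)
    ν.one_le (by simpa [mem_ball, ν.neg] using hz1)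
  have hw1 : ν.N w ≤ 1 := hw
  refine ⟨f * (1 - z), S₀.mul_mem hfS (S₀.sub_mem S₀.one_mem hzS),
    ν.mul_le_one hf (ν.sub_le_of_le ν.one_le hz1), ?_, ?_⟩
  · have : f * (1 - z) - f = -(f * z) := by ring
    rw [this, ν.neg]
    exact ν.mul_le_right hf hzN
  · have hfp' : f ^ p = 1 + (p : C) * z := by rw [hz]; ring
    have hid : (f * (1 - z)) ^ p - 1 = -((p : C) * z * ((p : C) * z))
        + (1 + (p : C) * z) * ((p : C) * (z * (z * w)) + (-z) ^ p) := by
      rw [mul_pow, hfp', sub_eq_add_neg 1 z, hexp]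
      simp only [one_pow, mul_one]
      ring
    rw [hid]
    have hδ1 : π * γ' * γ ≤ π * γ' * max γ (γ ^ (p - 1) * π⁻¹) :=
      mul_le_mul' le_rfl (le_max_left _ _)
    have hδ2 : γ' * γ ^ (p - 1) ≤ π * γ' * max γ (γ ^ (p - 1) * π⁻¹) := by
      calc γ' * γ ^ (p - 1) = π * γ' * (γ ^ (p - 1) * π⁻¹) := by
            rw [mul_comm π γ', mul_assoc, mul_comm π, mul_assoc, inv_mul_cancel₀ hπ0.ne',
              mul_one]
        _ ≤ π * γ' * max γ (γ ^ (p - 1) * π⁻¹) := mul_le_mul' le_rfl (le_max_right _ _)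
    have hA : ν.N ((p : C) * z * ((p : C) * z)) ≤ π * γ' * γ := by
      calc ν.N ((p : C) * z * ((p : C) * z)) ≤ ν.N ((p : C) * z) * ν.N ((p : C) * z) :=
            ν.mul_le _ _
        _ ≤ (π * γ') * γ := by
            refine mul_le_mul' hpz ?_
            calc ν.N ((p : C) * z) ≤ π * γ' := hpz
              _ ≤ 1 * γ' := mul_le_mul' hp.π_le le_rfl
              _ = γ' := one_mul _
              _ ≤ γ := hγ'
    have hB : ν.N ((p : C) * (z * (z * w))) ≤ π * γ' * γ := by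
      rw [hp.N_p_mul, mul_assoc]
      refine mul_le_mul' le_rfl ?_
      calc ν.N (z * (z * w)) ≤ ν.N z * ν.N (z * w) := ν.mul_le _ _
        _ ≤ γ' * γ := mul_le_mul' hzN ((ν.mul_le_left hzN hw1).trans hγ')
    have hC : ν.N ((-z) ^ p) ≤ γ' * γ ^ (p - 1) := by
      have hzp : (-z) ^ p = (-z) * (-z) ^ (p - 1) := by rw [← pow_succ', hp1]
      have hle : ν.N ((-z) ^ (p - 1)) ≤ γ ^ (p - 1) := by
        rcases Nat.eq_zero_or_pos (p - 1) with h | h
        · have := hp.prime.two_le; omega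
        · exact ν.pow_le (by rw [ν.neg]; exact hzN.trans hγ') _ h.ne'
      rw [hzp]
      calc ν.N (-z * (-z) ^ (p - 1)) ≤ ν.N (-z) * ν.N ((-z) ^ (p - 1)) := ν.mul_le _ _
        _ ≤ γ' * γ ^ (p - 1) := mul_le_mul' (by rw [ν.neg]; exact hzN) hle
    have h1pz : ν.N (1 + (p : C) * z) ≤ 1 :=
      ν.add_le_of_le ν.one_le (ν.mul_le_one (ν.natCast_le_one p) hz1)
    refine ν.add_le_of_le (by rw [ν.neg]; exact hA.trans hδ1) ?_
    refine ν.mul_le_right h1pz ?_
    exact ν.add_le_of_le (hB.trans hδ1) (hC.trans hδ2)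

/-- **Newton iteration** for `X ^ p = 1`: an approximate `p`-th root of unity modulo `π γ` can be
improved to arbitrary precision `π γ δ ^ k`, staying congruent modulo `γ`, and staying inside any
subring closed under division by `p`. -/
theorem exists_newton (hp : ν.PData p π) (hdiv : ∀ a : C, ∃ z, (p : C) * z = a)
    (S₀ : Subring C) (hS₀ : ∀ a : C, (p : C) * a ∈ S₀ → a ∈ S₀)
    {γ : Γ} (hγ : γ ^ (p - 1) < π)
    {f : C} (hfS : f ∈ S₀) (hf : ν.N f ≤ 1) (hfp : ν.N (f ^ p - 1) ≤ π * γ) (k : ℕ) :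
    ∃ g ∈ S₀, ν.N g ≤ 1 ∧ ν.N (g - f) ≤ γ ∧
      ν.N (g ^ p - 1) ≤ π * γ * max γ (γ ^ (p - 1) * π⁻¹) ^ k := by
  have hγ1 : γ < 1 := hp.lt_one_of_pow_lt hγ
  have hπ0 : 0 < π := lt_of_le_of_lt zero_le hγ
  have hδ : max γ (γ ^ (p - 1) * π⁻¹) ≤ 1 := by
    refine max_le hγ1.le ?_
    calc γ ^ (p - 1) * π⁻¹ ≤ π * π⁻¹ := mul_le_mul' hγ.le le_rfl
      _ = 1 := mul_inv_cancel₀ hπ0.ne'
  induction k with
  | zero => exact ⟨f, hfS, hf, by simp [ν.zero], by simpa using hfp⟩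
  | succ k ih =>
    obtain ⟨g, hgS, hg1, hgf, hgp⟩ := ih
    have hγ' : γ * max γ (γ ^ (p - 1) * π⁻¹) ^ k ≤ γ := by
      calc γ * max γ (γ ^ (p - 1) * π⁻¹) ^ k ≤ γ * 1 :=
            mul_le_mul' le_rfl (pow_le_one' hδ k)
        _ = γ := mul_one _
    obtain ⟨g', hg'S, hg'1, hg'g, hg'p⟩ := newton_step hp hdiv S₀ hS₀ hγ hγ' hgS hg1
      (by rw [← mul_assoc]; exact hgp)
    refine ⟨g', hg'S, hg'1, ?_, ?_⟩
    · have : g' - f = (g' - g) + (g - f) := by ring
      rw [this]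
      exact ν.add_le_of_le (hg'g.trans hγ') hgf
    · rw [pow_succ, ← mul_assoc]
      rw [← mul_assoc] at hg'p
      exact hg'p

end UNorm

end Fermat.Agent.S56.H434
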