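import Mathlib
import Fermat.Agent.S56.H434.UNorm

/-!
# S56 / W2-SS, piece A (helper434): the sup-norm on the convolution ring `Hom_R(M, Ω)`

`M` is a finite free cocommutative `R`-coalgebra with a basis `b`, `Ω` a field with a valuation
`v` such that the image of `R` is integral.  `convNorm v b hR` is the sup-norm with respect to the
basis, an ultrametric submultiplicative norm (`UNorm`) on `WithConv (M →ₗ[R] Ω)`.
-/

set_option autoImplicit false

open WithConv

namespace Fermat.Agent.S56.H434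

section SupNorm

variable {R : Type*} [CommRing R] {Ω : Type*} [Field Ω] [Algebra R Ω]
  {Γ : Type*} [LinearOrderedCommGroupWithZero Γ] (v : Valuation Ω Γ)
  {M : Type*} [AddCommGroup M] [Module R M] {ι : Type*} [Fintype ι] (b : Module.Basis ι R M)

/-- The sup-norm of a linear functional with respect to a basis. -/
noncomputable def supN (f : M →ₗ[R] Ω) : Γ := Finset.univ.sup fun i => v (f (b i))

theorem supN_le_iff {f : M →ₗ[R] Ω} {γ : Γ} : supN v b f ≤ γ ↔ ∀ i, v (f (b i)) ≤ γ := by
  simp [supN, Finset.sup_le_iff]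

theorem le_supN (f : M →ₗ[R] Ω) (i : ι) : v (f (b i)) ≤ supN v b f :=
  Finset.le_sup (f := fun i => v (f (b i))) (Finset.mem_univ i)

theorem apply_le_of_forall (hR : ∀ r : R, v (algebraMap R Ω r) ≤ 1) (f : M →ₗ[R] Ω) {γ : Γ}
    (hf : ∀ i, v (f (b i)) ≤ γ) (h : M) : v (f h) ≤ γ := by
  conv_lhs => rw [← b.sum_repr h]
  rw [map_sum]
  refine v.map_sum_le fun i _ => ?_
  rw [map_smul, Algebra.smul_def, map_mul]
  calc v (algebraMap R Ω (b.repr h i)) * v (f (b i)) ≤ 1 * γ := mul_le_mul' (hR _) (hf i)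
    _ = γ := one_mul _

theorem apply_le_supN (hR : ∀ r : R, v (algebraMap R Ω r) ≤ 1) (f : M →ₗ[R] Ω) (h : M) :
    v (f h) ≤ supN v b f :=
  apply_le_of_forall v b hR f (le_supN v b f) h

variable [Coalgebra R M] [Coalgebra.IsCocomm R M]

/-- The sup-norm on the convolution ring. -/
noncomputable def convNorm (hR : ∀ r : R, v (algebraMap R Ω r) ≤ 1) :
    UNorm (WithConv (M →ₗ[R] Ω)) Γ where
  N f := supN v b f.ofConv
  zero := by simp [supN]
  eq_zero f hf := by
    apply WithConv.ext
    apply b.ext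
    intro i
    have h1 := le_supN v b f.ofConv i
    rw [hf] at h1
    have h2 : v (f.ofConv (b i)) = 0 := le_antisymm h1 zero_le
    simpa using h2
  add_le f g := by
    rw [supN_le_iff]
    intro i
    simp only [ofConv_add, LinearMap.add_apply]
    exact (v.map_add _ _).trans (max_le_max (le_supN v b _ i) (le_supN v b _ i))
  neg f := by simp [supN, Valuation.map_neg]
  mul_le f g := by
    rw [supN_le_iff]
    intro i
    have := (Coalgebra.Repr.arbitrary R (b i)).convMul_apply f g
    rw [show (f * g).ofConv (b i) = (f * g) (b i) from rfl, this]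
    refine v.map_sum_le fun α _ => ?_
    rw [map_mul]
    exact mul_le_mul' (apply_le_supN v b hR _ _) (apply_le_supN v b hR _ _)
  one_le := by
    rw [supN_le_iff]
    intro i
    exact hR _

variable (hR : ∀ r : R, v (algebraMap R Ω r) ≤ 1)

theorem convNorm_N (f : WithConv (M →ₗ[R] Ω)) : (convNorm v b hR).N f = supN v b f.ofConv := rfl

theorem convNorm_le_iff {f : WithConv (M →ₗ[R] Ω)} {γ : Γ} :
    (convNorm v b hR).N f ≤ γ ↔ ∀ i, v (f.ofConv (b i)) ≤ γ :=
  supN_le_iff v b

theorem apply_le_convNorm (f : WithConv (M →ₗ[R] Ω)) (h : M) :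
    v (f.ofConv h) ≤ (convNorm v b hR).N f :=
  apply_le_supN v b hR _ h

omit [Fintype ι] [Coalgebra.IsCocomm R M] in
theorem natCast_mul_apply (n : ℕ) (a : WithConv (M →ₗ[R] Ω)) (h : M) :
    ((n : WithConv (M →ₗ[R] Ω)) * a).ofConv h = (n : Ω) * a.ofConv h := by
  rw [← nsmul_eq_mul]
  have : (n • a).ofConv = n • a.ofConv := map_nsmul (WithConv.addEquiv _) n a
  rw [this, LinearMap.smul_apply, nsmul_eq_mul]

theorem convNorm_natCast_mul (n : ℕ) (a : WithConv (M →ₗ[R] Ω)) :
    (convNorm v b hR).N ((n : WithConv (M →ₗ[R] Ω)) * a) = v (n : Ω) * (convNorm v b hR).N a := by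
  refine le_antisymm ?_ ?_
  · rw [convNorm_le_iff]
    intro i
    rw [natCast_mul_apply, map_mul]
    exact mul_le_mul' le_rfl (apply_le_convNorm v b hR a (b i))
  · rcases eq_or_ne (v (n : Ω)) 0 with h0 | h0
    · rw [h0, zero_mul]; exact zero_le
    · have hpos : 0 < v (n : Ω) := lt_of_le_of_ne zero_le (Ne.symm h0)
      have : (convNorm v b hR).N a
          ≤ (v (n : Ω))⁻¹ * (convNorm v b hR).N ((n : WithConv (M →ₗ[R] Ω)) * a) := by
        rw [convNorm_le_iff]
        intro i
        have h1 := apply_le_convNorm v b hR ((n : WithConv (M →ₗ[R] Ω)) * a) (b i)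
        rw [natCast_mul_apply, map_mul] at h1
        calc v (a.ofConv (b i)) = (v (n : Ω))⁻¹ * (v (n : Ω) * v (a.ofConv (b i))) := by
              rw [← mul_assoc, inv_mul_cancel₀ h0, one_mul]
          _ ≤ _ := mul_le_mul' le_rfl h1
      calc v (n : Ω) * (convNorm v b hR).N a
          ≤ v (n : Ω) * ((v (n : Ω))⁻¹ *
              (convNorm v b hR).N ((n : WithConv (M →ₗ[R] Ω)) * a)) := mul_le_mul' le_rfl this
        _ = _ := by rw [← mul_assoc, mul_inv_cancel₀ h0, one_mul]

theorem convNorm_pdata {p : ℕ} (hp : p.Prime) : (convNorm v b hR).PData p (v (p : Ω)) where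
  prime := hp
  π_le := by
    have := hR (p : R)
    simpa using this
  N_p_mul a := convNorm_natCast_mul v b hR p a

omit [Fintype ι] in
theorem exists_natCast_mul_eq {p : ℕ} (hp0 : (p : Ω) ≠ 0) (a : WithConv (M →ₗ[R] Ω)) :
    ∃ z : WithConv (M →ₗ[R] Ω), (p : WithConv (M →ₗ[R] Ω)) * z = a := by
  refine ⟨toConv ((p : Ω)⁻¹ • a.ofConv), ?_⟩
  apply WithConv.ext
  apply LinearMap.ext
  intro h
  rw [natCast_mul_apply]
  simp only [LinearMap.smul_apply, smul_eq_mul]
  rw [← mul_assoc, mul_inv_cancel₀ hp0, one_mul]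

end SupNorm

end Fermat.Agent.S56.H434
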