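import Mathlib
import Fermat.Agent.S56.H434.ConvNorm

/-!
# S56 / W2-SS, piece A (helper434): multiplicativity defect in the convolution ring of `H ⊗ H`

For a commutative cocommutative bialgebra `H` and `f : H →ₗ[R] Ω` we put
`mA f = f ∘ mul` and `mB f = μ ∘ (f ⊗ f)`, two multiplicative maps
`WithConv (H →ₗ[R] Ω) → WithConv (H ⊗[R] H →ₗ[R] Ω)`; `f` is an algebra homomorphism iff
`mA f = mB f` and `f 1 = 1`.  The quantitative lifting lemma in the convolution ring of `H ⊗ H`
bounds the multiplicativity defect `mA f - mB f` by the defect of `f ^ p = 1`.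
-/

set_option autoImplicit false

open WithConv TensorProduct

namespace Fermat.Agent.S56.H434

section Mult

variable {R : Type*} [CommRing R] {Ω : Type*} [Field Ω] [Algebra R Ω]
  {H : Type*} [CommRing H] [Bialgebra R H] [Coalgebra.IsCocomm R H]

/-- `f ↦ f ∘ mul`. -/
noncomputable def mA (f : WithConv (H →ₗ[R] Ω)) : WithConv (H ⊗[R] H →ₗ[R] Ω) :=
  toConv (f.ofConv ∘ₗ (Bialgebra.mulCoalgHom R H).toLinearMap)

/-- `f ↦ μ ∘ (f ⊗ f)`. -/
noncomputable def mB (f : WithConv (H →ₗ[R] Ω)) : WithConv (H ⊗[R] H →ₗ[R] Ω) :=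
  toConv ((Algebra.TensorProduct.lmul' R (S := Ω)).toLinearMap ∘ₗ
    TensorProduct.map f.ofConv f.ofConv)

omit [Coalgebra.IsCocomm R H] in
@[simp] theorem mA_apply_tmul (f : WithConv (H →ₗ[R] Ω)) (h h' : H) :
    (mA f).ofConv (h ⊗ₜ[R] h') = f.ofConv (h * h') := by
  simp [mA]

omit [Coalgebra.IsCocomm R H] in
@[simp] theorem mB_apply_tmul (f : WithConv (H →ₗ[R] Ω)) (h h' : H) :
    (mB f).ofConv (h ⊗ₜ[R] h') = f.ofConv h * f.ofConv h' := by
  simp [mB]

omit [Coalgebra.IsCocomm R H] in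
theorem mA_mul (f g : WithConv (H →ₗ[R] Ω)) : mA (f * g) = mA f * mA g := by
  apply WithConv.ext
  exact LinearMap.convMul_comp_coalgHom_distrib f g (Bialgebra.mulCoalgHom R H)

omit [Coalgebra.IsCocomm R H] in
theorem mA_one : mA (1 : WithConv (H →ₗ[R] Ω)) = 1 := by
  apply WithConv.ext
  apply TensorProduct.ext'
  intro h h'
  rw [mA_apply_tmul]
  simp [LinearMap.convOne_def, mul_comm]

omit [Coalgebra.IsCocomm R H] in
theorem mA_pow (f : WithConv (H →ₗ[R] Ω)) (n : ℕ) : mA (f ^ n) = mA f ^ n := by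
  induction n with
  | zero => simpa using mA_one (R := R) (Ω := Ω) (H := H)
  | succ n ih => rw [pow_succ, pow_succ, mA_mul, ih]

omit [Coalgebra.IsCocomm R H] in
theorem mA_sub (f g : WithConv (H →ₗ[R] Ω)) : mA (f - g) = mA f - mA g := by
  apply WithConv.ext
  apply TensorProduct.ext'
  intro h h'
  simp [mA]

omit [Coalgebra.IsCocomm R H] in
theorem mB_mul (f g : WithConv (H →ₗ[R] Ω)) : mB (f * g) = mB f * mB g := by
  apply WithConv.ext
  have h1 := TensorProduct.map_convMul_map (R := R) (f := f) (h := g) (g := f) (k := g)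
  have h2 := LinearMap.algHom_comp_convMul_distrib (R := R) (Algebra.TensorProduct.lmul' R (S := Ω))
    (toConv (TensorProduct.map f.ofConv f.ofConv)) (toConv (TensorProduct.map g.ofConv g.ofConv))
  rw [h1] at h2
  exact h2

omit [Coalgebra.IsCocomm R H] in
theorem mB_one : mB (1 : WithConv (H →ₗ[R] Ω)) = 1 := by
  apply WithConv.ext
  apply TensorProduct.ext'
  intro h h'
  rw [mB_apply_tmul]
  simp [LinearMap.convOne_def, mul_comm]

omit [Coalgebra.IsCocomm R H] in
theorem mB_pow (f : WithConv (H →ₗ[R] Ω)) (n : ℕ) : mB (f ^ n) = mB f ^ n := by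
  induction n with
  | zero => simpa using mB_one (R := R) (Ω := Ω) (H := H)
  | succ n ih => rw [pow_succ, pow_succ, mB_mul, ih]

end Mult

section Norm

variable {R : Type*} [CommRing R] {Ω : Type*} [Field Ω] [Algebra R Ω]
  {Γ : Type*} [LinearOrderedCommGroupWithZero Γ] (v : Valuation Ω Γ)
  {H : Type*} [CommRing H] [Bialgebra R H] [Coalgebra.IsCocomm R H]
  {ι : Type*} [Fintype ι] (b : Module.Basis ι R H)
  (hR : ∀ r : R, v (algebraMap R Ω r) ≤ 1)

theorem convNorm_mA_le (f : WithConv (H →ₗ[R] Ω)) :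
    (convNorm v (b.tensorProduct b) hR).N (mA f) ≤ (convNorm v b hR).N f := by
  rw [convNorm_le_iff]
  rintro ⟨i, j⟩
  rw [Module.Basis.tensorProduct_apply, mA_apply_tmul]
  exact apply_le_convNorm v b hR f _

theorem convNorm_mB_sub_le {f g : WithConv (H →ₗ[R] Ω)} (hf : (convNorm v b hR).N f ≤ 1)
    (hg : (convNorm v b hR).N g ≤ 1) :
    (convNorm v (b.tensorProduct b) hR).N (mB f - mB g) ≤ (convNorm v b hR).N (f - g) := by
  rw [convNorm_le_iff]
  rintro ⟨i, j⟩
  rw [Module.Basis.tensorProduct_apply, ofConv_sub, LinearMap.sub_apply, mB_apply_tmul,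
    mB_apply_tmul]
  have hid : f.ofConv (b i) * f.ofConv (b j) - g.ofConv (b i) * g.ofConv (b j)
      = (f - g).ofConv (b i) * f.ofConv (b j) + g.ofConv (b i) * (f - g).ofConv (b j) := by
    simp only [ofConv_sub, LinearMap.sub_apply]
    ring
  rw [hid]
  refine (v.map_add _ _).trans (max_le ?_ ?_)
  · rw [map_mul]
    calc v ((f - g).ofConv (b i)) * v (f.ofConv (b j))
        ≤ (convNorm v b hR).N (f - g) * 1 :=
          mul_le_mul' (apply_le_convNorm v b hR _ _) ((apply_le_convNorm v b hR _ _).trans hf)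
      _ = _ := mul_one _
  · rw [map_mul]
    calc v (g.ofConv (b i)) * v ((f - g).ofConv (b j))
        ≤ 1 * (convNorm v b hR).N (f - g) :=
          mul_le_mul' ((apply_le_convNorm v b hR _ _).trans hg) (apply_le_convNorm v b hR _ _)
      _ = _ := one_mul _

theorem convNorm_mB_le_one {f : WithConv (H →ₗ[R] Ω)} (hf : (convNorm v b hR).N f ≤ 1) :
    (convNorm v (b.tensorProduct b) hR).N (mB f) ≤ 1 := by
  rw [convNorm_le_iff]
  rintro ⟨i, j⟩
  rw [Module.Basis.tensorProduct_apply, mB_apply_tmul, map_mul]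
  calc v (f.ofConv (b i)) * v (f.ofConv (b j)) ≤ 1 * 1 :=
        mul_le_mul' ((apply_le_convNorm v b hR _ _).trans hf)
          ((apply_le_convNorm v b hR _ _).trans hf)
    _ = 1 := one_mul _

/-- The multiplicativity defect of an approximate `p`-th root of unity `f` in the convolution
ring is controlled by the defect of `f ^ p = 1`. -/
theorem mul_defect_le {p : ℕ} (hp : p.Prime) {γ τ : Γ} (hγ : γ ^ (p - 1) < v (p : Ω))
    {f : WithConv (H →ₗ[R] Ω)} (hf : (convNorm v b hR).N f ≤ 1)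
    (hAB : (convNorm v (b.tensorProduct b) hR).N (mA f - mB f) ≤ γ)
    (hτ : τ < 1) (hfp : (convNorm v b hR).N (f ^ p - 1) ≤ τ) :
    v (p : Ω) * (convNorm v (b.tensorProduct b) hR).N (mA f - mB f) ≤ τ := by
  set ν := convNorm v b hR with hν
  set ν₂ := convNorm v (b.tensorProduct b) hR with hν₂
  have hfp1 : ν.N (f ^ p) ≤ 1 := ν.pow_le_one hf p
  have hBp : ν₂.N (mB f ^ p - 1) ≤ τ := by
    rw [← mB_pow, ← mB_one (R := R) (Ω := Ω) (H := H)]
    exact (convNorm_mB_sub_le v b hR hfp1 ν.one_le).trans hfp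
  have hAp : ν₂.N (mA f ^ p - 1) ≤ τ := by
    rw [← mA_pow, ← mA_one (R := R) (Ω := Ω) (H := H), ← mA_sub]
    exact (convNorm_mA_le v b hR _).trans hfp
  have key := UNorm.mul_sub_le_pow_sub_pow (convNorm_pdata v (b.tensorProduct b) hR hp) hγ
    (convNorm_mB_le_one v b hR hf) hAB (lt_of_le_of_lt hBp hτ)
  refine key.trans ?_
  have : mA f ^ p - mB f ^ p = (mA f ^ p - 1) - (mB f ^ p - 1) := by ring
  rw [this]
  exact ν₂.sub_le_of_le hAp hBp

end Norm

end Fermat.Agent.S56.H434
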