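import Mathlib
import Fermat.Agent.S56.H434.Mult

/-!
# S56 / W2-SS, piece A (helper434): approximate ring homomorphisms and the convolution ring

`ApproxHom v R T η ε`: `η : Ω → Ω` is, on the subring `T`, a ring homomorphism modulo `ε`,
with integral values and `η r ≡ r` on the image of `R`.
`Near v T η ε F y`: the functional `F` is congruent to `η ∘ y` modulo `ε`; this relation is
compatible with the convolution product.
-/

set_option autoImplicit false

open WithConv TensorProduct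

namespace Fermat.Agent.S56.H434

section Val

variable {Ω : Type*} [Field Ω] {Γ : Type*} [LinearOrderedCommGroupWithZero Γ] (v : Valuation Ω Γ)

theorem val_sub_le_trans {a b c : Ω} {ε : Γ} (h1 : v (a - b) ≤ ε) (h2 : v (b - c) ≤ ε) :
    v (a - c) ≤ ε := by
  have : a - c = (a - b) + (b - c) := by ring
  rw [this]
  exact v.map_add_le h1 h2

theorem val_sub_comm (a b : Ω) : v (a - b) = v (b - a) := v.map_sub_swap a b

theorem val_mul_sub_mul_le {a a' c c' : Ω} {ε : Γ} (h1 : v (a - c) ≤ ε) (h2 : v (a' - c') ≤ ε)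
    (ha' : v a' ≤ 1) (hc : v c ≤ 1) : v (a * a' - c * c') ≤ ε := by
  have : a * a' - c * c' = (a - c) * a' + c * (a' - c') := by ring
  rw [this]
  refine v.map_add_le ?_ ?_
  · rw [map_mul]
    calc v (a - c) * v a' ≤ ε * 1 := mul_le_mul' h1 ha'
      _ = ε := mul_one _
  · rw [map_mul]
    calc v c * v (a' - c') ≤ 1 * ε := mul_le_mul' hc h2
      _ = ε := one_mul _

theorem val_sum_sub_sum_le {α : Type*} (s : Finset α) (f g : α → Ω) {ε : Γ}
    (h : ∀ i ∈ s, v (f i - g i) ≤ ε) : v (∑ i ∈ s, f i - ∑ i ∈ s, g i) ≤ ε := by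
  rw [← Finset.sum_sub_distrib]
  exact v.map_sum_le h

theorem val_le_one_of_sub_le {a b : Ω} {ε : Γ} (hε : ε ≤ 1) (h : v (a - b) ≤ ε) (hb : v b ≤ 1) :
    v a ≤ 1 := by
  have : a = (a - b) + b := by ring
  rw [this]
  exact v.map_add_le (h.trans hε) hb

end Val

section Approx

variable {Ω : Type*} [Field Ω] {Γ : Type*} [LinearOrderedCommGroupWithZero Γ] (v : Valuation Ω Γ)
  (R : Type*) [CommRing R] [Algebra R Ω]

/-- `η` is a ring homomorphism modulo `ε` on the subring `T`. -/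
structure ApproxHom (T : Subring Ω) (η : Ω → Ω) (ε : Γ) : Prop where
  int : ∀ a ∈ T, v (η a) ≤ 1
  add : ∀ a ∈ T, ∀ b ∈ T, v (η (a + b) - (η a + η b)) ≤ ε
  mul : ∀ a ∈ T, ∀ b ∈ T, v (η (a * b) - η a * η b) ≤ ε
  map_algebraMap : ∀ r : R, v (η (algebraMap R Ω r) - algebraMap R Ω r) ≤ ε

variable {v R} {T : Subring Ω} {η : Ω → Ω} {ε : Γ}

theorem ApproxHom.zero (hη : ApproxHom v R T η ε) : v (η 0) ≤ ε := by
  have h := hη.add 0 T.zero_mem 0 T.zero_mem
  have : η (0 + 0) - (η 0 + η 0) = -η 0 := by rw [add_zero]; ring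
  rwa [this, Valuation.map_neg] at h

theorem ApproxHom.sub (hη : ApproxHom v R T η ε) {a b : Ω} (ha : a ∈ T) (hb : b ∈ T) :
    v (η (a - b) - (η a - η b)) ≤ ε := by
  have h := hη.add (a - b) (T.sub_mem ha hb) b hb
  rw [sub_add_cancel] at h
  have : η (a - b) - (η a - η b) = -(η a - (η (a - b) + η b)) := by ring
  rwa [this, Valuation.map_neg]

theorem ApproxHom.sum (hη : ApproxHom v R T η ε) {α : Type*} (s : Finset α) (a : α → Ω)
    (ha : ∀ i ∈ s, a i ∈ T) : v (η (∑ i ∈ s, a i) - ∑ i ∈ s, η (a i)) ≤ ε := by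
  classical
  induction s using Finset.induction_on with
  | empty => simpa using hη.zero
  | insert j s hj ih =>
    have ha' : ∀ i ∈ s, a i ∈ T := fun i hi => ha i (Finset.mem_insert_of_mem hi)
    have hj' : a j ∈ T := ha j (Finset.mem_insert_self j s)
    rw [Finset.sum_insert hj, Finset.sum_insert hj]
    have h1 := hη.add (a j) hj' (∑ i ∈ s, a i) (T.sum_mem ha')
    have h2 : v ((η (a j) + η (∑ i ∈ s, a i)) - (η (a j) + ∑ i ∈ s, η (a i))) ≤ ε := by
      have : (η (a j) + η (∑ i ∈ s, a i)) - (η (a j) + ∑ i ∈ s, η (a i))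
          = η (∑ i ∈ s, a i) - ∑ i ∈ s, η (a i) := by ring
      rw [this]
      exact ih ha'
    exact val_sub_le_trans v h1 h2

theorem ApproxHom.sum_mul (hη : ApproxHom v R T η ε) {α : Type*} (s : Finset α) (a c : α → Ω)
    (ha : ∀ i ∈ s, a i ∈ T) (hc : ∀ i ∈ s, c i ∈ T) :
    v (η (∑ i ∈ s, a i * c i) - ∑ i ∈ s, η (a i) * η (c i)) ≤ ε := by
  have h1 := hη.sum s (fun i => a i * c i) (fun i hi => T.mul_mem (ha i hi) (hc i hi))
  have h2 : v (∑ i ∈ s, η (a i * c i) - ∑ i ∈ s, η (a i) * η (c i)) ≤ ε :=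
    val_sum_sub_sum_le v s _ _ fun i hi => hη.mul _ (ha i hi) _ (hc i hi)
  exact val_sub_le_trans v h1 h2

end Approx

section Near

variable {Ω : Type*} [Field Ω] {Γ : Type*} [LinearOrderedCommGroupWithZero Γ] (v : Valuation Ω Γ)
  {R : Type*} [CommRing R] [Algebra R Ω]
  {H : Type*} [CommRing H] [Bialgebra R H] [Coalgebra.IsCocomm R H]

/-- `F ≡ η ∘ y` modulo `ε`, where `y` has values in `T` and `F` has integral values. -/
def Near (T : Subring Ω) (η : Ω → Ω) (ε : Γ) (F y : WithConv (H →ₗ[R] Ω)) : Prop :=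
  (∀ h, y.ofConv h ∈ T) ∧ (∀ h, v (F.ofConv h) ≤ 1) ∧
    ∀ h, v (F.ofConv h - η (y.ofConv h)) ≤ ε

variable {v} {T : Subring Ω} {η : Ω → Ω} {ε : Γ}

omit [Coalgebra.IsCocomm R H] in
theorem near_one (hη : ApproxHom v R T η ε) (hR : ∀ r : R, v (algebraMap R Ω r) ≤ 1)
    (hRT : ∀ r : R, algebraMap R Ω r ∈ T) :
    Near v T η ε (1 : WithConv (H →ₗ[R] Ω)) 1 := by
  refine ⟨fun h => hRT _, fun h => hR _, fun h => ?_⟩
  have := hη.map_algebraMap (Coalgebra.counit (R := R) h)
  rw [val_sub_comm] at this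
  exact this

omit [Coalgebra.IsCocomm R H] in
theorem near_mul (hη : ApproxHom v R T η ε) {F G y z : WithConv (H →ₗ[R] Ω)}
    (hF : Near v T η ε F y) (hG : Near v T η ε G z) : Near v T η ε (F * G) (y * z) := by
  obtain ⟨hy, hF1, hFy⟩ := hF
  obtain ⟨hz, hG1, hGz⟩ := hG
  have key : ∀ h : H, (F * G).ofConv h = ∑ i ∈ (Coalgebra.Repr.arbitrary R h).index,
      F.ofConv ((Coalgebra.Repr.arbitrary R h).left i) *
        G.ofConv ((Coalgebra.Repr.arbitrary R h).right i) :=
    fun h => (Coalgebra.Repr.arbitrary R h).convMul_apply F G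
  have key' : ∀ h : H, (y * z).ofConv h = ∑ i ∈ (Coalgebra.Repr.arbitrary R h).index,
      y.ofConv ((Coalgebra.Repr.arbitrary R h).left i) *
        z.ofConv ((Coalgebra.Repr.arbitrary R h).right i) :=
    fun h => (Coalgebra.Repr.arbitrary R h).convMul_apply y z
  refine ⟨fun h => ?_, fun h => ?_, fun h => ?_⟩
  · rw [key']
    exact T.sum_mem fun i _ => T.mul_mem (hy _) (hz _)
  · rw [key]
    refine v.map_sum_le fun i _ => ?_
    rw [map_mul]
    calc v (F.ofConv _) * v (G.ofConv _) ≤ 1 * 1 := mul_le_mul' (hF1 _) (hG1 _)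
      _ = 1 := one_mul _
  · rw [key, key']
    have h1 := hη.sum_mul (Coalgebra.Repr.arbitrary R h).index
      (fun i => y.ofConv ((Coalgebra.Repr.arbitrary R h).left i))
      (fun i => z.ofConv ((Coalgebra.Repr.arbitrary R h).right i))
      (fun i _ => hy _) (fun i _ => hz _)
    rw [val_sub_comm] at h1
    have h2 : v (∑ i ∈ (Coalgebra.Repr.arbitrary R h).index,
        F.ofConv ((Coalgebra.Repr.arbitrary R h).left i) *
          G.ofConv ((Coalgebra.Repr.arbitrary R h).right i) -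
        ∑ i ∈ (Coalgebra.Repr.arbitrary R h).index,
          η (y.ofConv ((Coalgebra.Repr.arbitrary R h).left i)) *
            η (z.ofConv ((Coalgebra.Repr.arbitrary R h).right i))) ≤ ε :=
      val_sum_sub_sum_le v _ _ _ fun i _ =>
        val_mul_sub_mul_le v (hFy _) (hGz _) (hG1 _) (hη.int _ (hy _))
    exact val_sub_le_trans v h2 h1

omit [Coalgebra.IsCocomm R H] in
theorem near_pow (hη : ApproxHom v R T η ε) (hR : ∀ r : R, v (algebraMap R Ω r) ≤ 1)
    (hRT : ∀ r : R, algebraMap R Ω r ∈ T) {F y : WithConv (H →ₗ[R] Ω)}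
    (hF : Near v T η ε F y) (n : ℕ) : Near v T η ε (F ^ n) (y ^ n) := by
  induction n with
  | zero => simpa using near_one (H := H) hη hR hRT
  | succ n ih => rw [pow_succ, pow_succ]; exact near_mul hη ih hF

end Near

end Fermat.Agent.S56.H434
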