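import Mathlib
import Fermat.Agent.S56.H434.Near
import Fermat.Agent.S56.H384.ApproxPoint

/-!
# S56 / W2-SS, piece A (helper434): Theorem A — bridge-free lifting lemma, rationality form

`acts_trivially_of_approx_hom`: `Ω` algebraically closed with a rank-one valuation `v`, `H` a
finite free commutative cocommutative `R`-bialgebra all of whose `Ω`-points are killed by `p`,
`η` a ring homomorphism modulo `p γ` (`γ ^ (p - 1) < |p|`) defined on a subring `T` of integral
elements containing the values of all points, isometric modulo `γ`.  Then every valuation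
preserving endomorphism `σ` of `Ω` fixing `R` and the values of `η` fixes all points of `H`.

No completeness is used: Newton iteration is run finitely many times and the resulting
approximate point is replaced by a genuine point with `H384.exists_point_near`.
-/

set_option autoImplicit false

open WithConv TensorProduct

namespace Fermat.Agent.S56.H434

section Fixed

variable {Ω : Type*} [Field Ω] {R : Type*} [CommRing R] [Algebra R Ω]
  {H : Type*} [AddCommGroup H] [Module R H] [Coalgebra R H] [Coalgebra.IsCocomm R H]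

/-- The functionals with values fixed by `σ`, as a subring of the convolution ring. -/
def fixedSubring (σ : Ω →+* Ω) (hσR : ∀ r : R, σ (algebraMap R Ω r) = algebraMap R Ω r) :
    Subring (WithConv (H →ₗ[R] Ω)) where
  carrier := {F | ∀ h, σ (F.ofConv h) = F.ofConv h}
  mul_mem' := by
    intro F G hF hG h
    have key : (F * G).ofConv h = ∑ i ∈ (Coalgebra.Repr.arbitrary R h).index,
        F.ofConv ((Coalgebra.Repr.arbitrary R h).left i) *
          G.ofConv ((Coalgebra.Repr.arbitrary R h).right i) :=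
      (Coalgebra.Repr.arbitrary R h).convMul_apply F G
    rw [key, map_sum]
    refine Finset.sum_congr rfl fun i _ => ?_
    rw [map_mul, hF, hG]
  one_mem' := fun h => hσR _
  add_mem' := by
    intro F G hF hG h
    simp only [ofConv_add, LinearMap.add_apply, map_add, hF h, hG h]
  zero_mem' := fun h => by simp
  neg_mem' := by
    intro F hF h
    simp only [ofConv_neg, LinearMap.neg_apply, map_neg, hF h]

theorem mem_fixedSubring {σ : Ω →+* Ω} {hσR : ∀ r : R, σ (algebraMap R Ω r) = algebraMap R Ω r}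
    {F : WithConv (H →ₗ[R] Ω)} :
    F ∈ fixedSubring (H := H) σ hσR ↔ ∀ h, σ (F.ofConv h) = F.ofConv h := Iff.rfl

end Fixed

/-- **Theorem A.** -/
theorem acts_trivially_of_approx_hom
    {Ω : Type*} [Field Ω] [IsAlgClosed Ω] {Γ : Type*} [LinearOrderedCommGroupWithZero Γ]
    (v : Valuation Ω Γ)
    (harch : ∀ x y : Γ, x < 1 → y ≠ 0 → ∃ n : ℕ, x ^ n ≤ y)
    {R : Type*} [CommRing R] [Algebra R Ω] (hR : ∀ r : R, v (algebraMap R Ω r) ≤ 1)
    {H : Type*} [CommRing H] [Bialgebra R H] [Coalgebra.IsCocomm R H]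
    [Module.Free R H] [Module.Finite R H] [Finite (H →ₐ[R] Ω)]
    {p : ℕ} (hp : p.Prime)
    (hkill : ∀ x : WithConv (H →ₐ[R] Ω), x ^ p = 1)
    {γ : Γ} (hγ0 : γ ≠ 0) (hγ : γ ^ (p - 1) < v (p : Ω))
    (T : Subring Ω) (hTint : ∀ a ∈ T, v a ≤ 1) (hT : ∀ (x : H →ₐ[R] Ω) (h : H), x h ∈ T)
    (η : Ω → Ω) (hη : ApproxHom v R T η (v (p : Ω) * γ))
    (hiso : ∀ a ∈ T, v (η a) ≤ γ → v a ≤ γ)
    (σ : Ω →+* Ω) (hσv : ∀ a, v (σ a) = v a)
    (hσR : ∀ r : R, σ (algebraMap R Ω r) = algebraMap R Ω r)
    (hση : ∀ a ∈ T, σ (η a) = η a) :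
    ∀ (x : H →ₐ[R] Ω) (h : H), σ (x h) = x h := by
  classical
  -- basis and norms
  let b : Module.Basis (Module.Free.ChooseBasisIndex R H) R H := Module.Free.chooseBasis R H
  set ν := convNorm v b hR with hν
  set ν₂ := convNorm v (b.tensorProduct b) hR with hν₂
  have hpd : ν.PData p (v (p : Ω)) := convNorm_pdata v b hR hp
  have hπ0 : 0 < v (p : Ω) := lt_of_le_of_lt zero_le hγ
  have hp0 : (p : Ω) ≠ 0 := (Valuation.ne_zero_iff v).mp hπ0.ne'
  have hγ1 : γ < 1 := hpd.lt_one_of_pow_lt hγ
  have hεγ : v (p : Ω) * γ ≤ γ := by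
    calc v (p : Ω) * γ ≤ 1 * γ := mul_le_mul' hpd.π_le le_rfl
      _ = γ := one_mul _
  have hε1 : v (p : Ω) * γ ≤ 1 := hεγ.trans hγ1.le
  have hRT : ∀ r : R, algebraMap R Ω r ∈ T := fun r => by
    have := hT (1 : WithConv (H →ₐ[R] Ω)).ofConv (algebraMap R H r)
    rwa [AlgHom.commutes] at this
  -- points as elements of the convolution ring
  let X : (H →ₐ[R] Ω) → WithConv (H →ₗ[R] Ω) := fun x => toConv x.toLinearMap
  have hXapp : ∀ x h, (X x).ofConv h = x h := fun x h => rfl
  have hX1 : ∀ x, ν.N (X x) ≤ 1 := fun x =>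
    (convNorm_le_iff v b hR).mpr fun i => hTint _ (hT x _)
  have hXp : ∀ x, X x ^ p = 1 := by
    intro x
    have h1 := AlgHom.toLinearMap_convPow (toConv x) p
    rw [hkill (toConv x)] at h1
    rw [← h1]
    rfl
  have hXinj : ∀ x z, X x = X z → x = z := by
    intro x z h
    apply AlgHom.ext
    intro a
    have := congrArg (fun F : WithConv (H →ₗ[R] Ω) => F.ofConv a) h
    exact this
  -- the approximate points
  let f₀ : (H →ₐ[R] Ω) → WithConv (H →ₗ[R] Ω) :=
    fun x => toConv (b.constr R fun i => η (x (b i)))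
  have hf₀b : ∀ x i, (f₀ x).ofConv (b i) = η (x (b i)) := fun x i => b.constr_basis R _ i
  have hf₀near : ∀ x, Near v T η (v (p : Ω) * γ) (f₀ x) (X x) := by
    intro x
    have hval : ∀ h, v ((f₀ x).ofConv h - η (x h)) ≤ v (p : Ω) * γ := by
      intro h
      have e1 : (f₀ x).ofConv h = ∑ i, algebraMap R Ω (b.repr h i) * η (x (b i)) := by
        conv_lhs => rw [← b.sum_repr h]
        rw [map_sum]
        refine Finset.sum_congr rfl fun i _ => ?_
        rw [map_smul, hf₀b, Algebra.smul_def]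
      have e2 : x h = ∑ i, algebraMap R Ω (b.repr h i) * x (b i) := by
        conv_lhs => rw [← b.sum_repr h]
        rw [map_sum]
        refine Finset.sum_congr rfl fun i _ => ?_
        rw [map_smul, Algebra.smul_def]
      rw [e1, e2]
      have h1 := hη.sum_mul Finset.univ (fun i => algebraMap R Ω (b.repr h i))
        (fun i => x (b i)) (fun i _ => hRT _) (fun i _ => hT x _)
      have h2 : v (∑ i, algebraMap R Ω (b.repr h i) * η (x (b i)) -
          ∑ i, η (algebraMap R Ω (b.repr h i)) * η (x (b i))) ≤ v (p : Ω) * γ :=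
        val_sum_sub_sum_le v _ _ _ fun i _ => by
          rw [← sub_mul, map_mul]
          have := hη.map_algebraMap (b.repr h i)
          rw [val_sub_comm] at this
          calc _ ≤ v (p : Ω) * γ * 1 := mul_le_mul' this (hη.int _ (hT x _))
            _ = v (p : Ω) * γ := mul_one _
      rw [val_sub_comm] at h1
      exact val_sub_le_trans v h2 h1
    exact ⟨fun h => hT x h, fun h => val_le_one_of_sub_le v hε1 (hval h) (hη.int _ (hT x h)),
      hval⟩
  have hf₀1 : ∀ x, ν.N (f₀ x) ≤ 1 := fun x =>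
    (convNorm_le_iff v b hR).mpr fun i => (hf₀near x).2.1 _
  have hf₀p : ∀ x, ν.N (f₀ x ^ p - 1) ≤ v (p : Ω) * γ := by
    intro x
    have hn := near_pow hη hR hRT (hf₀near x) p
    rw [hXp x] at hn
    obtain ⟨-, -, hn3⟩ := hn
    rw [convNorm_le_iff]
    intro i
    have h1 := hn3 (b i)
    have h2 := hη.map_algebraMap (Coalgebra.counit (R := R) (b i))
    have e : (f₀ x ^ p - 1).ofConv (b i) =
        ((f₀ x ^ p).ofConv (b i) - η ((1 : WithConv (H →ₗ[R] Ω)).ofConv (b i))) +
        (η (algebraMap R Ω (Coalgebra.counit (R := R) (b i))) -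
          algebraMap R Ω (Coalgebra.counit (R := R) (b i))) := by
      have e1 : (1 : WithConv (H →ₗ[R] Ω)).ofConv (b i) =
          algebraMap R Ω (Coalgebra.counit (R := R) (b i)) := rfl
      rw [ofConv_sub, LinearMap.sub_apply, e1]
      ring
    rw [e]
    exact v.map_add_le h1 h2
  have hf₀mul : ∀ x, ν₂.N (mA (f₀ x) - mB (f₀ x)) ≤ v (p : Ω) * γ := by
    intro x
    obtain ⟨-, hF1, hFn⟩ := hf₀near x
    rw [convNorm_le_iff]
    rintro ⟨i, j⟩
    rw [Module.Basis.tensorProduct_apply, ofConv_sub, LinearMap.sub_apply, mA_apply_tmul,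
      mB_apply_tmul]
    have h1 := hFn (b i * b j)
    have hx : (X x).ofConv (b i * b j) = x (b i) * x (b j) := map_mul x _ _
    rw [hx] at h1
    have h2 := hη.mul _ (hT x (b i)) _ (hT x (b j))
    have h3 : v (η (x (b i)) * η (x (b j)) - (f₀ x).ofConv (b i) * (f₀ x).ofConv (b j))
        ≤ v (p : Ω) * γ := by
      rw [val_sub_comm]
      exact val_mul_sub_mul_le v (hFn _) (hFn _) (hF1 _) (hη.int _ (hT x _))
    exact val_sub_le_trans v (val_sub_le_trans v h1 h2) h3
  -- the `σ`-fixed subring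
  have hS₀div : ∀ a : WithConv (H →ₗ[R] Ω),
      (p : WithConv (H →ₗ[R] Ω)) * a ∈ fixedSubring (H := H) σ hσR →
        a ∈ fixedSubring (H := H) σ hσR := by
    intro a ha h
    have h1 := ha h
    rw [natCast_mul_apply, map_mul, map_natCast] at h1
    exact mul_left_cancel₀ hp0 h1
  have hf₀S : ∀ x, f₀ x ∈ fixedSubring (H := H) σ hσR := by
    intro x h
    have e1 : (f₀ x).ofConv h = ∑ i, algebraMap R Ω (b.repr h i) * η (x (b i)) := by
      conv_lhs => rw [← b.sum_repr h]
      rw [map_sum]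
      refine Finset.sum_congr rfl fun i _ => ?_
      rw [map_smul, hf₀b, Algebra.smul_def]
    rw [e1, map_sum]
    refine Finset.sum_congr rfl fun i _ => ?_
    rw [map_mul, hσR, hση _ (hT x _)]
  -- the number of Newton steps
  set δ := max γ (γ ^ (p - 1) * (v (p : Ω))⁻¹) with hδ
  have hδ1 : δ < 1 := by
    refine max_lt hγ1 ?_
    calc γ ^ (p - 1) * (v (p : Ω))⁻¹ < v (p : Ω) * (v (p : Ω))⁻¹ :=
          mul_lt_mul_of_pos_right hγ (inv_pos.mpr hπ0)
      _ = 1 := mul_inv_cancel₀ hπ0.ne'
  obtain ⟨K, hK⟩ := harch δ (γ ^ Fintype.card (Module.Free.ChooseBasisIndex R H)) hδ1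
    (pow_ne_zero _ hγ0)
  have hγpos : 0 < γ := lt_of_le_of_ne zero_le (Ne.symm hγ0)
  have hμ : γ * δ ^ K < γ ^ Fintype.card (Module.Free.ChooseBasisIndex R H) := by
    calc γ * δ ^ K ≤ γ * γ ^ Fintype.card (Module.Free.ChooseBasisIndex R H) :=
          mul_le_mul' le_rfl hK
      _ < 1 * γ ^ Fintype.card (Module.Free.ChooseBasisIndex R H) :=
          mul_lt_mul_of_pos_right hγ1 (pow_pos hγpos _)
      _ = _ := one_mul _
  have hδK : δ ^ K ≤ 1 := pow_le_one' hδ1.le K
  have hτ1 : v (p : Ω) * γ * δ ^ K < 1 := by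
    calc v (p : Ω) * γ * δ ^ K ≤ γ * 1 := mul_le_mul' hεγ hδK
      _ = γ := mul_one _
      _ < 1 := hγ1
  -- for each point, an exact `σ`-fixed point nearby
  have hex : ∀ x : H →ₐ[R] Ω, ∃ x' : H →ₐ[R] Ω,
      ν.N (X x' - f₀ x) ≤ γ ∧ ∀ h, σ (x' h) = x' h := by
    intro x
    obtain ⟨g, hgS, hg1, hgf, hgp⟩ := UNorm.exists_newton hpd
      (fun a => exists_natCast_mul_eq (R := R) (M := H) hp0 a)
      (fixedSubring (H := H) σ hσR) hS₀div hγ (hf₀S x) (hf₀1 x) (hf₀p x) K
    have hAB : ν₂.N (mA g - mB g) ≤ γ := by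
      have e : mA g - mB g =
          (mA g - mA (f₀ x)) + (mA (f₀ x) - mB (f₀ x)) + (mB (f₀ x) - mB g) := by ring
      rw [e]
      refine ν₂.add_le_of_le (ν₂.add_le_of_le ?_ ?_) ?_
      · rw [← mA_sub]
        exact (convNorm_mA_le v b hR _).trans hgf
      · exact (hf₀mul x).trans hεγ
      · refine (convNorm_mB_sub_le v b hR (hf₀1 x) hg1).trans ?_
        rw [ν.sub_comm]
        exact hgf
    have hdef := mul_defect_le v b hR hp hγ hg1 hAB hτ1 hgp
    have hdef' : ν₂.N (mA g - mB g) ≤ γ * δ ^ K := by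
      rw [mul_assoc] at hdef
      exact le_of_mul_le_mul_left hdef hπ0
    have hmul : ∀ i j, v (g.ofConv (b i * b j) - g.ofConv (b i) * g.ofConv (b j))
        ≤ γ * δ ^ K := by
      intro i j
      have := (convNorm_le_iff v (b.tensorProduct b) hR).mp hdef' (i, j)
      rwa [Module.Basis.tensorProduct_apply, ofConv_sub, LinearMap.sub_apply, mA_apply_tmul,
        mB_apply_tmul] at this
    have hone : v (g.ofConv 1 - 1) ≤ γ * δ ^ K := by
      have h11 : v (g.ofConv 1 - g.ofConv 1 * g.ofConv 1) ≤ γ * δ ^ K := by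
        have := apply_le_convNorm v (b.tensorProduct b) hR (mA g - mB g) ((1 : H) ⊗ₜ[R] (1 : H))
        rw [ofConv_sub, LinearMap.sub_apply, mA_apply_tmul, mB_apply_tmul, mul_one] at this
        exact this.trans hdef'
      have hφ : v (g.ofConv 1 - 1) ≤ γ := by
        have a1 : v ((g - f₀ x).ofConv 1) ≤ γ := (apply_le_convNorm v b hR _ _).trans hgf
        have a2 : v ((f₀ x).ofConv 1 - η (x 1)) ≤ γ := ((hf₀near x).2.2 1).trans hεγ
        have a3 : v (η (x 1) - 1) ≤ γ := by
          have := hη.map_algebraMap (1 : R)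
          rw [map_one] at this
          rw [map_one]
          exact this.trans hεγ
        have e : g.ofConv 1 - 1 =
            (g - f₀ x).ofConv 1 + (((f₀ x).ofConv 1 - η (x 1)) + (η (x 1) - 1)) := by
          rw [ofConv_sub, LinearMap.sub_apply]
          ring
        rw [e]
        exact v.map_add_le a1 (v.map_add_le a2 a3)
      have hφ1 : v (g.ofConv 1) = 1 := by
        have : v (g.ofConv 1 - 1) < v (1 : Ω) := by
          rw [v.map_one]
          exact lt_of_le_of_lt hφ hγ1
        have h := Valuation.map_eq_of_sub_lt v this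
        rw [v.map_one] at h
        exact h
      have e : g.ofConv 1 - g.ofConv 1 * g.ofConv 1 = g.ofConv 1 * (-(g.ofConv 1 - 1)) := by
        ring
      rw [e, map_mul, hφ1, one_mul, Valuation.map_neg] at h11
      exact h11
    obtain ⟨x', hx'⟩ := Fermat.Agent.S56.H384.exists_point_near v hR b g.ofConv hγ1.le hμ
      (fun i => (apply_le_convNorm v b hR g (b i)).trans hg1) hone hmul
    have hx'g : ν.N (X x' - g) ≤ γ := by
      rw [convNorm_le_iff]
      intro i
      have := hx' i
      rw [val_sub_comm] at this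
      rwa [ofConv_sub, LinearMap.sub_apply]
    refine ⟨x', ?_, ?_⟩
    · have e : X x' - f₀ x = (X x' - g) + (g - f₀ x) := by ring
      rw [e]
      exact ν.add_le_of_le hx'g hgf
    · let σA : Ω →ₐ[R] Ω := { σ with commutes' := hσR }
      have hy : ν.N (X (σA.comp x') - X x') ≤ γ := by
        rw [convNorm_le_iff]
        intro i
        have e : (X (σA.comp x') - X x').ofConv (b i) =
            σ (x' (b i) - g.ofConv (b i)) + (g.ofConv (b i) - x' (b i)) := by
          rw [map_sub, hgS (b i), ofConv_sub, LinearMap.sub_apply]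
          show σ (x' (b i)) - x' (b i) = _
          ring
        rw [e]
        refine v.map_add_le ?_ (hx' i)
        rw [hσv, val_sub_comm]
        exact hx' i
      have key := UNorm.eq_of_pow_eq_one hpd hγ (hX1 x') hy (hXp _) (hXp x')
      intro h
      have := congrArg (fun F : WithConv (H →ₗ[R] Ω) => F.ofConv h) key
      exact this
  choose Φ hΦ1 hΦ2 using hex
  have hΦinj : Function.Injective Φ := by
    intro x z hxz
    have h1 : ν.N (f₀ x - f₀ z) ≤ γ := by
      have e : f₀ x - f₀ z = (X (Φ z) - f₀ z) - (X (Φ x) - f₀ x) := by rw [hxz]; ring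
      rw [e]
      exact ν.sub_le_of_le (hΦ1 z) (hΦ1 x)
    have h2 : ν.N (X x - X z) ≤ γ := by
      rw [convNorm_le_iff]
      intro i
      rw [ofConv_sub, LinearMap.sub_apply, hXapp, hXapp]
      apply hiso _ (T.sub_mem (hT x _) (hT z _))
      have h3 := hη.sub (hT x (b i)) (hT z (b i))
      have h4 : v (η (x (b i)) - η (z (b i))) ≤ γ := by
        have := (convNorm_le_iff v b hR).mp h1 i
        rwa [ofConv_sub, LinearMap.sub_apply, hf₀b, hf₀b] at this
      have e : η (x (b i) - z (b i)) =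
          (η (x (b i) - z (b i)) - (η (x (b i)) - η (z (b i)))) +
            (η (x (b i)) - η (z (b i))) := by ring
      rw [e]
      exact v.map_add_le (h3.trans hεγ) h4
    exact hXinj x z (UNorm.eq_of_pow_eq_one hpd hγ (hX1 z) h2 (hXp x) (hXp z))
  have hΦsurj : Function.Surjective Φ := Finite.surjective_of_injective hΦinj
  intro x h
  obtain ⟨z, rfl⟩ := hΦsurj x
  exact hΦ2 z h

end Fermat.Agent.S56.H434
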