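import Fermat.Agent.S56.FL.LMSpec
import Fermat.Agent.S56.H434.Rational

/-!
# S56 / W-FLAT-SS: `RationalityStatement` (Theorem A) PROVED  (helper434)

`rationality : Fermat.Agent.S56.FL.RationalityStatement`, the bridge-free lifting lemma in
rationality form, from `H434.acts_trivially_of_approx_hom`.
-/

set_option autoImplicit false

namespace Fermat.Agent.S56.H434

/-- **Theorem A**, in the frozen form of `FL/LMSpec.lean`. -/
theorem rationality : Fermat.Agent.S56.FL.RationalityStatement := by
  intro Ω _ _ Γ₀ _ v harch R _ _ hR H _ _ _ _ _ _ p hp hkill γ hγ0 hγ T hTint hT η hη1 hη2 hη3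
    hη4 hiso σ hσv hσR hση
  exact acts_trivially_of_approx_hom v harch hR hp hkill hγ0 hγ T hTint hT η
    ⟨hη1, hη2, hη3, hη4⟩ hiso σ hσv hσR hση

end Fermat.Agent.S56.H434
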